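import Mathlib
import Fermat.Prelude.Def_FLTPrelim_FreyPackage
import Fermat.Prelude.Def_FLTPrelim_GaloisRep
import Fermat.Prelude.Def_FLTPrelim_Modularity
import Fermat.Prelude.Def_FLTPrelim_ModularRep
import Fermat.Prelude.Def_FLTPrelim_Ramification
import Fermat.Prelude.Def_FreyPackage_IsConductorLevel
import Fermat.Prelude.Def_WeierstrassCurve_Mlc1RowStatement
import Fermat.Agent.S04.FreyInt

/-!
# S06 wiring: modularity of the Frey representation at a conductor level

`Fermat.Agent.S06.modularRepOfConductorLevel_of_exact`: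
S06 follows from "every semistable integral Weierstrass curve with nonzero discriminant is
modular of exact conductor level" (the conclusion of S59, `Mlc1IsModularModelOfExactConductorLevel`),
applied to the integral Frey curve.
-/

set_option autoImplicit false
open WeierstrassCurve WeierstrassCurve.Affine WeierstrassCurve.Affine.Point
open CuspForm ModularFormClass UpperHalfPlane
open FreyPackage

namespace Fermat.Agent.S06

/-- A prime dividing the discriminant of the integral Frey curve divides `a * b * c`. -/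
theorem prime_dvd_abc_of_dvd_freyCurveInt_Δ (P : FreyPackage) {q : ℕ} (hq : q.Prime)
    (h : (q : ℤ) ∣ P.freyCurveInt.Δ) : (q : ℤ) ∣ P.a * P.b * P.c := by
  have hq' : Prime (q : ℤ) := Nat.prime_iff_prime_int.mp hq
  have h1 := Fermat.Agent.S04.freyCurveInt_Δ P
  have hdvd : (q : ℤ) ∣ (P.a ^ P.p) ^ 2 * (P.b ^ P.p) ^ 2 * (P.c ^ P.p) ^ 2 := by
    rw [← h1]; exact Dvd.dvd.mul_left h _
  rcases hq'.dvd_or_dvd hdvd with h | h
  · rcases hq'.dvd_or_dvd h with h | h
    · exact Dvd.dvd.mul_right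
        (Dvd.dvd.mul_right (hq'.dvd_of_dvd_pow (hq'.dvd_of_dvd_pow h)) _) _
    · exact Dvd.dvd.mul_right
        (Dvd.dvd.mul_left (hq'.dvd_of_dvd_pow (hq'.dvd_of_dvd_pow h)) _) _
  · exact Dvd.dvd.mul_left (hq'.dvd_of_dvd_pow (hq'.dvd_of_dvd_pow h)) _

/-- A modular model of level `N` of an integral model of the Frey curve gives
`ModularRepOfLevel N` (equality of `a_ℓ` implies congruence modulo any maximal ideal over `p`). -/
theorem modularRepOfLevel_of_isModularModelOfLevel (P : FreyPackage) {W : WeierstrassCurve ℤ}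
    (hW : W.IsIntegralModelOf P.freyCurve) {N : ℕ} (hmod : W.IsModularModelOfLevel N) :
    P.ModularRepOfLevel N := by
  obtain ⟨f, hf, hfa⟩ := hmod
  obtain ⟨𝔪, h𝔪, hp𝔪⟩ := FLTPrelim.exists_maximalIdeal_natCast_prime_mem P.pp
  refine ⟨f, W, 𝔪, hf, hW, h𝔪, hp𝔪, ?_⟩
  intro ℓ hℓ hgood hℓN _
  refine ⟨((W.apOfModel ℓ : ℤ) : integralClosure ℤ ℂ), ?_, ?_⟩
  · rw [hfa ℓ hℓ hgood hℓN]; simp
  · simp

/-- S06 from exact-conductor-level modularity of semistable curves (conclusion of S59). -/
theorem modularRepOfConductorLevel_of_exact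
    (hMlc : ∀ W : WeierstrassCurve ℤ, W.Δ ≠ 0 → W.IsSemistableModel →
      Mlc1IsModularModelOfExactConductorLevel W)
    (P : FreyPackage) : ∃ N : ℕ, P.IsConductorLevel N ∧ P.ModularRepOfLevel N := by
  obtain ⟨N, hN, hsq, hiff, hmod⟩ := hMlc P.freyCurveInt
    (Fermat.Agent.S04.freyCurveInt_Δ_ne_zero P) (Fermat.Agent.S04.freyCurveInt_isSemistableModel P)
  refine ⟨N, ⟨hN, hsq, fun q hq hqN => ?_⟩, ?_⟩
  · exact prime_dvd_abc_of_dvd_freyCurveInt_Δ P hq ((hiff q hq).mp hqN)
  · refine modularRepOfLevel_of_isModularModelOfLevel P ?_ hmod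
    exact ⟨1, by rw [one_smul, Fermat.Agent.S04.freyCurveInt_map]⟩

/-- S06 from FLT for prime exponents `≥ 5` in Frey-package form (S03): vacuous. -/
theorem modularRepOfConductorLevel_of_no_frey (h03 : FreyPackage → False)
    (P : FreyPackage) : ∃ N : ℕ, P.IsConductorLevel N ∧ P.ModularRepOfLevel N :=
  (h03 P).elim

end Fermat.Agent.S06
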